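import Fermat.Agent.KlingenTwo.Series
import Fermat.Agent.KlingenZero.Form
import Fermat.Agent.KlingenZero.Mean
import Fermat.Agent.SiegelKlingen.ValuesTwo

/-!
# The form of weight `2 n` of a periodic function, and reciprocity for its constant term

A periodic function of mean zero gives a form of weight `2 n` on `Γ₁(N)`; the constant function has
a rational normalised value by the partial zeta values at `2`. So an automorphism of `ℂ` acts on
the normalised value at `k = 2` of every periodic function through the finite Fourier sums.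
-/

set_option autoImplicit false
set_option linter.unusedSectionVars false
set_option linter.style.haveILetI false

noncomputable section

open NumberField InfinitePlace Module Filter
open UpperHalfPlane hiding I
open Complex (I)
open scoped Real nonZeroDivisors Classical MatrixGroups Manifold ModularForm

namespace FA.KlingenTwo

open FA.HeckeFE FA.SiegelKlingen FA.KlingenRay FA.Eis
open FA.HeckeCharFE (trChar trChar_add)
open FA.KlingenZero (DualPair wHat MeanZero wHat_liftW meanZero_liftW)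
open FA.PadicEulerFactor (pMul mem_pMul add_mem_lat int_mul_mem)
open CongruenceSubgroup

variable {K : Type*} [Field K] [NumberField K] [IsTotallyReal K]
variable (J : (FractionalIdeal (𝓞 K)⁰ K)ˣ) (N : ℕ) [NeZero N]

/-- The form of a periodic function. -/
def eisPerTwo (Φ : K → ℂ) (τ : ℍ) : ℂ := eisTwo J N (liftW J N Φ) τ

variable {J N} {Φ : K → ℂ}

theorem perSum_liftW : perSum J 2 (fun d => liftW J N Φ (0, d)) = perSum J 2 Φ :=
  tsum_congr fun d => by simp only [liftW, if_pos (zero_mem_ideal (pMul J N))]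

variable (h : IsPer J N 2 Φ) (h0 : hatSum J N Φ 0 = 0)
include h h0

theorem eisPerTwo_inv {g : SL(2, ℤ)} (hg : g ∈ Gamma1 N) :
    eisPerTwo J N Φ ∣[((2 * finrank ℚ K : ℕ) : ℤ)] g = eisPerTwo J N Φ :=
  (FA.ModField.slash_eq_iff_smul g).2 fun z => by
    rw [zpow_natCast]
    exact eisTwo_smul h.lift (meanZero_liftW h0)
      (fun _ h1 h2 => h.lift_rowMul ((Gamma1 N).inv_mem hg) h1 h2) z

theorem eisPerTwo_bdd : BddAllCusps ((2 * finrank ℚ K : ℕ) : ℤ) (eisPerTwo J N Φ) := fun A => by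
  obtain ⟨β, hβ⟩ := exists_cusp h.lift (meanZero_liftW h0) A
  obtain ⟨B, hB⟩ := exists_eisTwo_le (h.lift.comp A⁻¹)
  rw [isBoundedAtImInfty_iff]
  refine ⟨B + ‖β‖, 1, fun z hz => ?_⟩
  rw [Eis.slash_sl_apply, ← Eis.denom_eq_den, zpow_neg, zpow_natCast, mul_comm, eisPerTwo, hβ z]
  refine (norm_add_le _ _).trans (add_le_add (hB z hz) ?_)
  rw [norm_mul, norm_inv, Complex.norm_real,
    Real.norm_of_nonneg (pow_nonneg z.im_pos.le _)]
  exact mul_le_of_le_one_left (norm_nonneg _) (inv_le_one_of_one_le₀ (one_le_pow₀ hz))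

omit h0

theorem hasSum_limW (τ : ℍ) : HasSum (fun y : Terms J N => factor (pMul J N) 2 *
    (((sgnN y.1.1.1.1 ^ 2 * |Algebra.norm ℚ (y.1.2 : K)| ^ (2 - 1) : ℚ) : ℂ) *
      hatSum J N Φ (y.1.2 : K) * expTerm (τ : ℂ) y.1.1.1.1 y.1.2))
    (∑' p, limW J N (liftW J N Φ) τ p) := by
  have hs := (summable_limW h.lift τ).hasSum
  obtain ⟨i, hi⟩ : ∃ i : Terms J N → DualPair J N, ∀ y, i y = (y.1.1.1, y.1.2) :=
    ⟨_, fun _ => rfl⟩
  have hinj : Function.Injective i := fun a b hab => by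
    rw [hi, hi, Prod.mk.injEq] at hab
    exact Subtype.ext (Prod.ext (Subtype.ext hab.1) hab.2)
  refine ((hinj.hasSum_iff fun p hp => ?_).2 hs).congr_fun fun y => ?_
  · rw [limW, wHat_liftW]
    by_cases h2 : (p.1.1 : K) ∈ (pMul J N : Set K)
    · rw [coef, if_neg fun hall => hp ⟨⟨(⟨p.1, h2⟩, p.2), hall⟩, hi _⟩]
      simp
    · rw [if_neg h2]
      simp
  · rw [Function.comp_apply, hi, limW, wHat_liftW, if_pos y.1.1.2, coef, if_pos y.2, sq,
      show sgnN y.1.1.1.1 * sgnN y.1.1.1.1 = 1 by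
        simpa using sgnN_pow_sq 1 (Rep.ne_zero J y.1.1.1), one_mul]
    ring

/-- **The q-series.** -/
theorem eisPerTwo_hasQ : HasQ 1 (eisPerTwo J N Φ) (PowerSeries.mk fun m =>
    if m = 0 then perSum J 2 Φ else factor (pMul J N) 2 * perCoeff J N 2 Φ m) := fun τ => by
  have hterms := hasSum_limW h τ
  rw [← (Equiv.sigmaFiberEquiv (termLevel J N)).hasSum_iff] at hterms
  have hlev : HasSum (fun m => factor (pMul J N) 2 * perCoeff J N 2 Φ m *
      Function.Periodic.qParam (1 : ℝ) (τ : ℂ) ^ m) (∑' p, limW J N (liftW J N Φ) τ p) := by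
    refine hterms.sigma fun m => ?_
    have : Fintype {y : Terms J N // termLevel J N y = m} :=
      (finite_termLevel (k := 3) le_rfl m).fintype
    convert hasSum_fintype _ using 1
    rw [perCoeff, tsum_fintype, Finset.mul_sum, Finset.sum_mul]
    refine Finset.sum_congr rfl fun y _ => ?_
    simp only [Function.comp_apply, Equiv.sigmaFiberEquiv_apply, expTerm]
    rw [← (termLevel_spec y.1).1, y.2, Function.Periodic.qParam, ← Complex.exp_nat_mul,
      Complex.ofReal_one, div_one, mul_assoc]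
    push_cast
    congr 2
    ring_nf
  rw [eisPerTwo, eisTwo, perSum_liftW]
  refine ((hasSum_ite_eq 0 (perSum J 2 Φ)).add hlev).congr_fun fun m => ?_
  rw [PowerSeries.coeff_mk]
  rcases eq_or_ne m 0 with rfl | hm
  · simp [perCoeff_zero]
  · simp [hm]

include h0

/-- **Mean zero gives a form of weight `2 n` on `Γ₁(N)`.** -/
theorem eisPerTwo_isMF : IsMF (Gamma1 N) (2 * finrank ℚ K) (eisPerTwo J N Φ) :=
  ⟨fun _ hg => eisPerTwo_inv h h0 hg, (eisPerTwo_hasQ h).mdiff one_pos, eisPerTwo_bdd h h0⟩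

/-- **Reciprocity in mean zero.** -/
theorem normVal_galois_meanZero {Φ' : K → ℂ} (h' : IsPer J N 2 Φ') (σ : ℂ →+* ℂ)
    (hhat : ∀ ν ∈ (dualIdeal (pMul J N) : Set K), σ (hatSum J N Φ ν) = hatSum J N Φ' ν) :
    σ (normVal J N 2 Φ) = normVal J N 2 Φ' := by
  have h0' : hatSum J N Φ' 0 = 0 := by rw [← hhat 0 (zero_mem_ideal _), h0, map_zero]
  obtain ⟨C₀, hC⟩ : ∃ C₀ : ℂ, C₀ = (factor (pMul J N) 2)⁻¹ := ⟨_, rfl⟩
  have hmf : IsMF (Gamma1 N) (2 * finrank ℚ K) (C₀ • eisPerTwo J N Φ) :=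
    ⟨fun g hg => by rw [ModularForm.SL_smul_slash, eisPerTwo_inv h h0 hg],
      ((eisPerTwo_hasQ h).smul C₀).mdiff one_pos, (eisPerTwo_bdd h h0).smul C₀⟩
  have hres := constant_galois σ (Nat.mul_ne_zero two_ne_zero finrank_pos.ne') hmf
    (h := C₀ • eisPerTwo J N Φ')
    (fun g hg => by rw [ModularForm.SL_smul_slash, eisPerTwo_inv h' h0' hg])
    ((eisPerTwo_hasQ h).smul C₀) ((eisPerTwo_hasQ h').smul C₀) fun m hm => ?_
  · simpa [normVal, hC] using hres
  · simp only [PowerSeries.coeff_smul, PowerSeries.coeff_mk, if_neg hm, smul_eq_mul, hC,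
      ← mul_assoc, inv_mul_cancel₀ (factor_ne_zero (pMul J N) 2), one_mul]
    have : Fintype {y : Terms J N // termLevel J N y = m} :=
      (finite_termLevel (k := 3) le_rfl m).fintype
    rw [perCoeff, perCoeff, tsum_fintype, tsum_fintype, map_sum]
    exact Finset.sum_congr rfl fun y _ => by rw [map_mul, map_ratCast, hhat _ y.1.1.2.2]

omit h h0

/-- The Fourier sums of the constant `1` are integers. -/
theorem hatSum_one {ν : K} (hν : ν ∈ (dualIdeal (pMul J N) : Set K)) :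
    ∃ q : ℕ, hatSum J N (fun _ => (1 : ℂ)) ν = (q : ℂ) := by
  by_cases hall : ∀ r ∈ residues J N, trChar (ν * r) = 1
  · exact ⟨(residues J N).card, by
      rw [hatSum, Finset.sum_congr rfl fun r hr => show 1 * trChar (ν * r) = (1 : ℂ) by
        rw [hall r hr, one_mul]]
      simp⟩
  push Not at hall
  obtain ⟨z, hz, hz1⟩ := hall
  refine ⟨0, ?_⟩
  have e := FA.KlingenZero.sum_residues_add J N (fun r => trChar (ν * r)) (fun x _ y hy => by
    show trChar (ν * (x + y)) = trChar (ν * x)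
    rw [mul_add, trChar_add, FA.HeckeCharFE.trChar_mul_eq_one hν hy, mul_one])
    (residues_mem J N hz)
  simp only [mul_add, trChar_add, ← Finset.sum_mul] at e
  rw [hatSum, Nat.cast_zero]
  simp only [one_mul]
  by_contra hne
  exact hz1 (mul_left_cancel₀ hne (e.trans (mul_one _).symm))

variable (J N) in
/-- **The normalised value of the constant `1` is rational.** -/
theorem normVal_one : ∃ r : ℚ, normVal J N 2 (fun _ => 1) = (r : ℂ) := by
  obtain ⟨r, hr⟩ := classZ_mem_two (K := K) (ClassGroup.mk K J)⁻¹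
  obtain ⟨q, hq⟩ := factor_eq (pMul J N) 1
  rw [mul_one] at hq
  have hs : 1 < ((2 : ℕ) : ℂ).re := by simp
  have h := coneSum_eq J hs
  rw [hr] at h
  have hcone : coneSum J ((2 : ℕ) : ℂ) = (normR J : ℂ) ^ 2 * perSum J 2 (fun _ => 1) := by
    rw [coneSum, perSum, ← tsum_mul_left]
    refine tsum_congr fun d => ?_
    have e : ((Algebra.norm ℚ d.1 : ℚ) : ℂ) ^ 2 = ((normR J * ratio J d.1 : ℝ) : ℂ) ^ 2 := by
      rw [normR_mul_ratio, ← Complex.ofReal_pow, ← Complex.ofReal_ratCast, ← Complex.ofReal_pow,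
        Rat.cast_abs, sq_abs]
    rw [Complex.cpow_neg, Complex.cpow_natCast, one_mul, e, Complex.ofReal_mul]
    have h1 : (normR J : ℂ) ≠ 0 := Complex.ofReal_ne_zero.2 (normR_pos _).ne'
    rw [mul_pow, mul_inv, ← mul_assoc, mul_inv_cancel₀ (pow_ne_zero _ h1), one_mul]
  rw [hcone] at h
  refine ⟨(Units.torsionOrder K : ℚ) * r /
    (FractionalIdeal.absNorm (J : FractionalIdeal (𝓞 K)⁰ K) ^ 2 * q), ?_⟩
  have hn : (normR J : ℂ) ^ 2 ≠ 0 :=
    pow_ne_zero _ (Complex.ofReal_ne_zero.2 (normR_pos _).ne')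
  have hf := factor_ne_zero (pMul J N) 2
  rw [hq] at hf
  have hN : (normR J : ℂ) = ((FractionalIdeal.absNorm (J : FractionalIdeal (𝓞 K)⁰ K) : ℚ) : ℂ) := by
    rw [normR, Complex.ofReal_ratCast]
  rw [hN] at h hn
  have e : perSum J 2 (fun _ => (1 : ℂ)) = (Units.torsionOrder K : ℂ) *
      ((r : ℂ) * ((π : ℂ) ^ (2 * finrank ℚ K) * (FA.SiegelKlingen.rootDiscr K : ℂ))) /
        ((FractionalIdeal.absNorm (J : FractionalIdeal (𝓞 K)⁰ K) : ℚ) : ℂ) ^ 2 := by
    rw [eq_div_iff hn, ← h, mul_comm]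
  rw [normVal, hq, e]
  have hq0 : (q : ℂ) ≠ 0 := left_ne_zero_of_mul hf
  have hp0 := right_ne_zero_of_mul hf
  push_cast
  field_simp [left_ne_zero_of_mul hp0, right_ne_zero_of_mul hp0]

/-- **Reciprocity for the normalised value at `k = 2`.** -/
theorem normVal_galois {Φ' : K → ℂ} (h : IsPer J N 2 Φ) (h' : IsPer J N 2 Φ') (σ : ℂ →+* ℂ)
    (hhat : ∀ ν ∈ (dualIdeal (pMul J N) : Set K), σ (hatSum J N Φ ν) = hatSum J N Φ' ν) :
    σ (normVal J N 2 Φ) = normVal J N 2 Φ' := by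
  obtain ⟨μ, hμ⟩ : ∃ μ : (K → ℂ) → ℂ,
      ∀ F, μ F = hatSum J N F 0 / (residues J N).card := ⟨_, fun _ => rfl⟩
  obtain ⟨D, hD⟩ : ∃ D : (K → ℂ) → K → ℂ, ∀ F x, D F x = F x - μ F := ⟨_, fun _ _ => rfl⟩
  have hcard : ((residues J N).card : ℂ) ≠ 0 := by
    obtain ⟨r, ⟨hr, -⟩, -⟩ := existsUnique_residue J N (zero_mem_ideal J)
    exact Nat.cast_ne_zero.2 (Finset.card_ne_zero_of_mem hr)
  have hper : ∀ {F : K → ℂ}, IsPer J N 2 F → IsPer J N 2 (D F) := fun {F} hF =>
    ⟨fun d hd y hy => by rw [hD, hD, hF.periodic d hd y hy], fun m d hd => by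
      rw [hD, hD, hF.unit m d hd, ← Rat.cast_pow, ← sq_abs,
        show |Algebra.norm ℚ (unitVal (K := K) m)| = 1 from unit_norm (unitPow m), one_pow,
        Rat.cast_one, one_mul, one_mul]⟩
  have hhatD : ∀ (F : K → ℂ) (ν : K),
      hatSum J N (D F) ν = hatSum J N F ν - μ F * hatSum J N (fun _ => 1) ν := fun F ν => by
    rw [hatSum, hatSum, hatSum, Finset.mul_sum, ← Finset.sum_sub_distrib]
    exact Finset.sum_congr rfl fun r _ => by rw [hD]; ring
  have hone : hatSum J N (fun _ => (1 : ℂ)) 0 = (residues J N).card := by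
    simp [hatSum, trChar]
  have hzero : hatSum J N (D Φ) 0 = 0 := by
    rw [hhatD, hone, hμ, div_mul_cancel₀ _ hcard, sub_self]
  have hσμ : σ (μ Φ) = μ Φ' := by
    rw [hμ, hμ, map_div₀, map_natCast, hhat 0 (zero_mem_ideal _)]
  have key := normVal_galois_meanZero (hper h) hzero (hper h') σ fun ν hν => by
    obtain ⟨q, hq⟩ := hatSum_one (J := J) hν
    rw [hhatD, hhatD, map_sub, map_mul, hhat ν hν, hσμ, hq, map_natCast]
  have hsum : ∀ {F : K → ℂ}, IsPer J N 2 F →
      Summable fun d : Rep J => F d.1 * (((Algebra.norm ℚ d.1 : ℚ) : ℂ) ^ 2)⁻¹ := fun {F} hF => by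
    obtain ⟨M, -, hM⟩ := hF.lift.exists_bound
    refine Summable.of_norm_bounded ((summable_constSum J le_rfl).mul_left M) fun d => ?_
    have hb := hM 0 (zero_mem_ideal J) d.1 d.2.1
    rw [liftW, if_pos (zero_mem_ideal _)] at hb
    rw [norm_mul, norm_inv, norm_pow, ← Complex.ofReal_ratCast, Complex.norm_real,
      Real.norm_eq_abs, ← Rat.cast_abs]
    exact mul_le_mul_of_nonneg_right hb (by positivity)
  have hlin : ∀ {F : K → ℂ}, IsPer J N 2 F →
      normVal J N 2 F = normVal J N 2 (D F) + μ F * normVal J N 2 (fun _ => 1) := fun {F} hF => by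
    have h1 : Summable fun d : Rep J => (1 : ℂ) * (((Algebra.norm ℚ d.1 : ℚ) : ℂ) ^ 2)⁻¹ :=
      hsum (F := fun _ => 1) ⟨fun d _ y _ => rfl, fun m d _ => by
        rw [← Rat.cast_pow, ← sq_abs,
          show |Algebra.norm ℚ (unitVal (K := K) m)| = 1 from unit_norm (unitPow m), one_pow,
          Rat.cast_one, one_mul]⟩
    rw [normVal, normVal, normVal, perSum, perSum, perSum,
      tsum_congr fun d : Rep J => show D F d.1 * (((Algebra.norm ℚ d.1 : ℚ) : ℂ) ^ 2)⁻¹ =
        F d.1 * (((Algebra.norm ℚ d.1 : ℚ) : ℂ) ^ 2)⁻¹ -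
          μ F * (1 * (((Algebra.norm ℚ d.1 : ℚ) : ℂ) ^ 2)⁻¹) by rw [hD]; ring,
      (hsum hF).tsum_sub (h1.mul_left _), tsum_mul_left]
    ring
  obtain ⟨r, hr⟩ := normVal_one J N
  rw [hlin h, hlin h', map_add, map_mul, key, hσμ, hr, map_ratCast]

/-- **Siegel's reciprocity law at `k = 2`.** -/
theorem normVal_reciprocity (h : IsPer J N 2 Φ) (σ : ℂ →+* ℂ) {t t' : ℕ}
    (htt : t * t' ≡ 1 [MOD N]) (hσ : ∀ z : ℂ, z ^ N = 1 → σ z = z ^ t) :
    σ (normVal J N 2 Φ) = normVal J N 2 fun x => σ (Φ ((t' : K) * x)) := by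
  have hmul : ∀ (B : (FractionalIdeal (𝓞 K)⁰ K)ˣ) {x : K}, x ∈ (B : Set K) →
      (t' : K) * x ∈ (B : Set K) := fun B x hx => by
    have h := int_mul_mem (B := B) (t' : ℤ) hx
    rwa [Int.cast_natCast, mul_comm] at h
  refine normVal_galois h ⟨fun d hd y hy => ?_, fun m d hd => ?_⟩ σ fun ν hν =>
    FA.KlingenZero.hatSum_conjugate h σ htt hσ hν
  · show σ (Φ ((t' : K) * (d + y))) = σ (Φ ((t' : K) * d))
    rw [mul_add, h.periodic _ (hmul J hd) _ (hmul _ hy)]
  · show σ (Φ ((t' : K) * (unitVal m * d))) = _ * σ (Φ ((t' : K) * d))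
    rw [mul_left_comm, h.unit m _ (hmul J hd), map_mul, map_pow, map_ratCast]

end FA.KlingenTwo

end
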