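import Fermat.Agent.KlingenTwo.Form
import Fermat.Agent.KlingenZero.Classes

/-!
# The values at every `1 - k`, `k ≥ 1`

Reciprocity at `k = 2` joins the values at `k ≥ 3` and those at `k = 1`: at every nonpositive
integer the value of a ray class character follows it under `Aut ℂ`, and that of a narrow ray class
is rational.
-/

set_option autoImplicit false
set_option linter.unusedSectionVars false
set_option linter.style.haveILetI false

noncomputable section

open NumberField InfinitePlace Module Filter Complex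
open scoped Real nonZeroDivisors Classical

namespace FA.KlingenTwo

open FA.HeckeFE FA.SiegelKlingen FA.HeckeCharFE FA.KlingenRay
open FA.Hecke (IsRayChar IsNontrivial heckeL RayClassGroup rayCharFn isRayChar_rayCharFn
  finite_rayClassGroup)

variable {K : Type*} [Field K] [NumberField K] [IsTotallyReal K]
variable {𝔪 : Ideal (𝓞 K)} {f : Ideal (𝓞 K) →* ℂ} {S : Finset (InfinitePlace K)} {k : ℕ}

/-- **The rational combination at `k = 2` under `σ`.** -/
theorem valueSum_galois_two {N : ℕ} [NeZero N] (h : HasSigns 𝔪 f S) (hpar : HasParity S 2)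
    (σ : ℂ →+* ℂ) (hN : (N : 𝓞 K) ∈ 𝔪) {t t' : ℕ} (htt : t * t' ≡ 1 [MOD N])
    (hσ : ∀ z : ℂ, z ^ N = 1 → σ z = z ^ t) :
    σ (valueSum 𝔪 f S 2 N) =
      resFn 𝔪 (twistChar σ f) S (t' : 𝓞 K) * valueSum 𝔪 (twistChar σ f) S 2 N := by
  rw [valueSum, valueSum, map_sum, Finset.mul_sum]
  refine Finset.sum_congr rfl fun C _ => ?_
  obtain ⟨J, hJ⟩ : ∃ J, J = repIdeal K C := ⟨_, rfl⟩
  rw [map_mul, map_ratCast, ← hJ,
    normVal_reciprocity (isPer_res h hpar hN J) σ htt hσ, normVal, normVal, perSum, perSum,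
    tsum_congr fun d : Rep J => show σ (res 𝔪 f S J ((t' : K) * d.1)) *
        (((Algebra.norm ℚ d.1 : ℚ) : ℂ) ^ 2)⁻¹ = resFn 𝔪 (twistChar σ f) S (t' : 𝓞 K) *
          (res 𝔪 (twistChar σ f) S J d.1 * (((Algebra.norm ℚ d.1 : ℚ) : ℂ) ^ 2)⁻¹) by
      rw [← res_twist, res_natCast_mul (twist_signs h σ) J t' d.2.1, mul_assoc],
    tsum_mul_left]
  ring

/-- **Equivariance of the product at `k = 2`.** -/
theorem primValue_galois_two {N : ℕ} [NeZero N] (h : HasSigns 𝔪 f S) (hpar : HasParity S 2)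
    (σ : ℂ →+* ℂ) (hN : (N : 𝓞 K) ∈ 𝔪) :
    σ (primValue 𝔪 f S 2 N) = primValue 𝔪 (twistChar σ f) S 2 N := by
  obtain ⟨t, t', htt, hσ⟩ := exists_exponent σ N
  have h' := twist_signs h σ
  rw [primValue, primValue, map_mul, gaussW_galois h σ hN htt hσ,
    valueSum_galois_two h.conj hpar σ hN htt hσ, twist_conjChar h.ray σ h'.ray, conjChar,
    h'.resFn_conj, ← conjChar]
  have e := h'.resFn_mul_conj (natCast_coprime hN (mul_comm t t' ▸ htt)).1
  linear_combination (gaussW 𝔪 (twistChar σ f) S *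
    valueSum 𝔪 (conjChar (twistChar σ f)) S 2 N) * e

/-- **Equivariance for a primitive character, every `k ≥ 2`.** -/
theorem primExt_galois (h : HasSigns 𝔪 f S) (hp : IsPrimitiveChar 𝔪 f) (hnt : IsNontrivial f)
    (hk : 2 ≤ k) (σ : ℂ →+* ℂ) : σ (primExt h hp (1 - (k : ℂ))) =
      primExt (twist_signs h σ) (twist_prim hp σ) (1 - (k : ℂ)) := by
  rcases (Nat.eq_or_lt_of_le hk) with hk2 | hk3
  swap
  · exact FA.KlingenRay.primExt_galois h hp hnt hk3 σ
  subst hk2
  have : NeZero (Ideal.absNorm 𝔪) := ⟨fun e => h.ne_bot (Ideal.absNorm_eq_zero_iff.1 e)⟩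
  by_cases hpar : HasParity S 2
  · rw [primExt_one_sub h hp hnt hpar le_rfl (Ideal.absNorm 𝔪),
      primExt_one_sub (twist_signs h σ) _ (twist_nontrivial hnt σ) hpar le_rfl
        (Ideal.absNorm 𝔪), map_mul, map_ratCast,
      primValue_galois_two h hpar σ (Ideal.absNorm_mem 𝔪)]
  · rw [primExt, primExt, invFac_eq_zero 𝔪 hpar le_rfl, zero_mul, zero_mul, map_zero]

/-- The value at `1 - k` of the zeta function of the field. -/
theorem exists_extension_eq (hk : 2 ≤ k) : ∃ r : ℚ, extension K (1 - (k : ℂ)) = (r : ℂ) ∧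
    (r = 0 ↔ Odd k) := by
  rcases (Nat.eq_or_lt_of_le hk) with hk2 | hk3
  swap
  · exact FA.KlingenRay.exists_extension_eq hk3
  subst hk2
  obtain ⟨r, h0, hr⟩ := extension_mem (K := K) even_two le_rfl
    (dedekindZeta_mem even_two le_rfl classZ_mem_two)
  exact ⟨r, hr, iff_of_false h0 (by decide)⟩

/-- **The automorphisms of `ℂ` act through the character, at every `1 - k`.** -/
theorem value_galois (h : IsRayChar 𝔪 f) (hk : 1 ≤ k) (σ : ℂ →+* ℂ) {Z Z' : ℂ → ℂ}
    (hZ : IsLExt f Z) (hZ' : IsLExt (twistChar σ f) Z') :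
    σ (Z (1 - (k : ℂ))) = Z' (1 - (k : ℂ)) := by
  rcases (Nat.eq_or_lt_of_le hk) with hk1 | hk2
  · subst hk1
    rw [FA.KlingenZero.one_sub_one]
    exact FA.KlingenZero.value_zero_galois h σ hZ hZ'
  have h1 := one_sub_ne_one (k := k) hk
  by_cases hnt : IsNontrivial f
  · obtain ⟨𝔣, g, -, hg, hp, hgn, hgf⟩ := exists_primitive h
    obtain ⟨S, hS⟩ := exists_hasSigns hg
    rw [hZ.unique (isLExt_induced h hS hp (hgn hnt) hgf) h1, hZ'.unique
      (isLExt_induced (twist_ray h σ) (twist_signs hS σ) (twist_prim hp σ)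
        (twist_nontrivial (hgn hnt) σ) fun I hI hc => congrArg σ (hgf I hI hc)) h1,
      zeroSet_twist h σ (twist_ray h σ), map_mul, primExt_galois hS hp (hgn hnt) hk2 σ,
      factors_galois σ g _ hk]
  · rw [hZ.unique (isLExt_trivial h hnt) h1,
      hZ'.unique (isLExt_trivial (twist_ray h σ) (twist_trivial hnt σ)) h1,
      zeroSet_twist h σ (twist_ray h σ),
      map_mul, factors_galois σ 1 _ hk,
      show twistChar σ (1 : Ideal (𝓞 K) →* ℂ) = 1 from MonoidHom.ext fun _ => map_one σ]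
    obtain ⟨r, hr, -⟩ := exists_extension_eq (K := K) hk2
    rw [hr, map_ratCast]

/-- **The value lies in the field of the character.** -/
theorem value_mem (h : IsRayChar 𝔪 f) (hk : 1 ≤ k) {Z : ℂ → ℂ} (hZ : IsLExt f Z) :
    Z (1 - (k : ℂ)) ∈ IntermediateField.adjoin ℚ (Set.range f) := by
  refine mem_of_forall_fixed _ _ fun σ hσ => ?_
  have e : twistChar σ.toRingHom f = f := MonoidHom.ext fun I =>
    hσ _ (IntermediateField.subset_adjoin ℚ _ ⟨I, rfl⟩)
  exact value_galois h hk σ.toRingHom hZ (e.symm ▸ hZ)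

/-- **For `k ≥ 2` it vanishes exactly when the signs are not those of `k`.** -/
theorem value_eq_zero_iff (h : HasSigns 𝔪 f S) (hk : 2 ≤ k) {Z : ℂ → ℂ} (hZ : IsLExt f Z) :
    Z (1 - (k : ℂ)) = 0 ↔ ¬HasParity S k := by
  have h1 := one_sub_ne_one (k := k) (by omega)
  by_cases hnt : IsNontrivial f
  · obtain ⟨𝔣, g, hle, hg, hp, hgn, hgf⟩ := exists_primitive h.ray
    obtain ⟨S', hS⟩ := exists_hasSigns hg
    obtain rfl : S = S' := hasSigns_unique h
      { ray := h.ray
        real := hS.real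
        sgn := fun x h0 hx => by
          rw [← hgf _ (by simpa using h0) (by
            rw [FA.Hecke.span_sup_congr hx, Ideal.span_singleton_one, top_sup_eq])]
          exact hS.sgn x h0 (hle hx) }
    rw [hZ.unique (isLExt_induced h.ray hS hp (hgn hnt) hgf) h1, mul_eq_zero,
      or_iff_left (factors_ne_zero hg _ hk)]
    refine ⟨fun e hpar => primExt_ne_zero hS hp (hgn hnt) hpar hk e, fun hpar => ?_⟩
    rw [primExt, invFac_eq_zero _ hpar hk, zero_mul]
  · obtain rfl : S = ∅ := hasSigns_unique h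
      { ray := h.ray
        real := by simp
        sgn := fun x h0 hx => by
          rw [FA.Hecke.eq_one_of_not_isNontrivial hnt (by simpa using h0) ((h.ray.ne_zero_iff _
            (by simpa using h0)).2 (by
              rw [FA.Hecke.span_sup_congr hx, Ideal.span_singleton_one, top_sup_eq]))]
          simp [sgnS] }
    obtain ⟨r, hr, hr0⟩ := exists_extension_eq (K := K) hk
    rw [hZ.unique (isLExt_trivial h.ray hnt) h1, hr, mul_eq_zero,
      or_iff_left (factors_ne_zero IsRayChar.one _ hk), Rat.cast_eq_zero, hr0, HasParity]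
    refine ⟨fun ho hpar => ?_, fun hpar => ?_⟩
    · rcases hpar with ⟨he, -⟩ | ⟨-, hu⟩
      · exact Nat.not_even_iff_odd.2 ho he
      · exact Finset.univ_nonempty.ne_empty hu.symm
    · exact Nat.not_even_iff_odd.1 fun he => hpar (Or.inl ⟨he, rfl⟩)

/-- **A primitive nontrivial character, every `k ≥ 1`.** -/
theorem value_eq_zero_iff_primitive (h : HasSigns 𝔪 f S) (hp : IsPrimitiveChar 𝔪 f)
    (hnt : IsNontrivial f) (hk : 1 ≤ k) {Z : ℂ → ℂ} (hZ : IsLExt f Z) :
    Z (1 - (k : ℂ)) = 0 ↔ ¬HasParity S k := by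
  rcases (Nat.eq_or_lt_of_le hk) with hk1 | hk2
  · subst hk1
    rw [FA.KlingenZero.one_sub_one, FA.KlingenZero.value_zero_eq_zero_iff h hp hnt hZ, HasParity]
    simp
  · exact value_eq_zero_iff h hk2 hZ

/-- **The partial zeta functions are rational at every `1 - k`.** -/
theorem classValue_rational (h𝔪 : 𝔪 ≠ ⊥) (γ : RayClassGroup 𝔪) (hk : 1 ≤ k) {Z : ℂ → ℂ}
    (hZ : IsClassExt h𝔪 γ Z) : ∃ r : ℚ, Z (1 - (k : ℂ)) = (r : ℂ) := by
  have := finite_rayClassGroup h𝔪
  have : Fintype (RayClassGroup 𝔪) := Fintype.ofFinite _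
  have := FA.Weight1.fintypeDual (U := RayClassGroup 𝔪)
  choose L hL using fun χ : RayClassGroup 𝔪 →* ℂˣ =>
    exists_isLExt (isRayChar_rayCharFn h𝔪 χ)
  have h1 := one_sub_ne_one (k := k) hk
  obtain ⟨W, hW⟩ : ∃ W : ℂ → ℂ, W = fun s =>
      (Fintype.card (RayClassGroup 𝔪) : ℂ)⁻¹ * ∑ χ, (χ γ⁻¹ : ℂ) * L χ s := ⟨_, rfl⟩
  have hW' : DifferentiableOn ℂ W {1}ᶜ :=
    hW ▸ (DifferentiableOn.fun_sum fun χ _ => (hL χ).1.const_mul _).const_mul _
  have hZW : Z (1 - (k : ℂ)) = W (1 - (k : ℂ)) := by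
    refine (hZ.1.analyticOnNhd isOpen_compl_singleton).eqOn_of_preconnected_of_eventuallyEq
      (hW'.analyticOnNhd isOpen_compl_singleton)
      (isConnected_compl_singleton_of_one_lt_rank (by simp) 1).isPreconnected
      (z₀ := 2) (by simp) ?_ h1
    filter_upwards [(isOpen_lt continuous_const Complex.continuous_re).mem_nhds
      (show (1 : ℝ) < (2 : ℂ).re by norm_num)] with t ht
    rw [hZ.2 t ht, hW]
    simp only [(hL _).2 t ht]
    rw [← card_mul_rayClassZeta h𝔪 γ ht,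
      inv_mul_cancel_left₀ (Nat.cast_ne_zero.2 Fintype.card_ne_zero)]
  have hfix : ∀ σ : ℂ ≃+* ℂ, σ (W (1 - (k : ℂ))) = W (1 - (k : ℂ)) := fun σ => by
    simp only [hW, map_mul, map_inv₀, map_natCast, map_sum]
    congr 1
    refine Fintype.sum_equiv (MulEquiv.monoidHomCongrRight
      (Units.mapEquiv σ.toMulEquiv)).toEquiv _ _ fun χ => ?_
    congr 1
    refine value_galois (isRayChar_rayCharFn h𝔪 χ) hk σ.toRingHom (hL χ) ?_
    rw [twist_rayCharFn]
    exact hL _
  obtain ⟨r, hr⟩ := IntermediateField.mem_bot.1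
    (mem_of_forall_fixed ⊥ (W (1 - (k : ℂ))) fun σ _ => hfix σ)
  exact ⟨r, by rw [hZW, ← hr, eq_ratCast]⟩

end FA.KlingenTwo

end
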