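import Fermat.Agent.KlingenZero.Poisson
import Fermat.Agent.KlingenRay.Weights
import Fermat.Agent.SiegelKlingen.HeckeTrick

/-!
# Poisson summation over a translate with Hecke's factor in weight two

For one `c` the sum over `x₀ + J` of `∏ (c_w z + d_w)^(-2) |c_w z + d_w|^(-2 s)` is the series over
the dual ideal twisted by `exp (2 π i Tr (ν x₀))`; scaling the dual by `N` carries the terms for
`N J` to those for `J` at `z / N`.
-/

set_option autoImplicit false
set_option linter.unusedSectionVars false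
set_option linter.style.haveILetI false

noncomputable section

open NumberField InfinitePlace Module MeasureTheory Matrix UnitAddTorus Filter Set
open Complex (I)
open scoped Real nonZeroDivisors Classical Topology FourierTransform UpperHalfPlane

namespace FA.KlingenTwo

open FA.HeckeFE FA.SiegelKlingen
open FA.HeckeCharFE (trChar norm_trChar)
open FA.KlingenZero (exp_sum_trChar)
open FA.PadicEulerFactor (pMul)

variable {K : Type*} [Field K] [NumberField K] [IsTotallyReal K]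
variable (J : (FractionalIdeal (𝓞 K)⁰ K)ˣ)

/-- **Poisson summation over a translate.** -/
theorem inner_poisson_shift {s : ℝ} (hs : 0 ≤ s) (hs1 : s ≤ 1) (τ : ℍ) {c : K} (hc : c ≠ 0)
    (x₀ : K) :
    Summable (fun ν : ↥(dualIdeal J : Set K) => dualTerm s τ c ν * trChar ((ν : K) * x₀)) ∧
      ∑' d : ↥(J : Set K), heckeTerm s τ c (x₀ + d) = ((covol J : ℝ) : ℂ)⁻¹ *
        ∑' ν : ↥(dualIdeal J : Set K), dualTerm s τ c ν * trChar ((ν : K) * x₀) := by
  obtain ⟨n, e, N, M, EI, EJ, hMN, hdetN, hNint, hMint⟩ := exists_lattice_pair J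
  have hy := τ.im_pos
  have hdet : N.det ≠ 0 := fun h => by
    rw [h, abs_zero] at hdetN
    exact (covol_pos J).ne hdetN
  obtain ⟨σ, hσ, hσc⟩ : ∃ σ : Fin n → ℝ, (∀ j, σ j = 1 ∨ σ j = -1) ∧
      ∀ j, σ j * remb (e j) c = |remb (e j) c| := by
    refine ⟨fun j => if 0 < remb (e j) c then 1 else -1, fun j => ?_, fun j => ?_⟩ <;> simp only
    · split_ifs <;> simp
    · split_ifs with h
      · rw [one_mul, abs_of_pos h]
      · rw [neg_one_mul, abs_of_nonpos (not_lt.1 h)]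
  obtain ⟨a, ha⟩ : ∃ a : Fin n → ℝ, ∀ j, a j = |remb (e j) c| * τ.im := ⟨_, fun _ => rfl⟩
  have ha0 : ∀ j, 0 < a j := fun j => ha j ▸ mul_pos (abs_pos.2 (remb_ne_zero _ hc)) hy
  obtain ⟨b, hb⟩ : ∃ b : Fin n → ℝ,
      ∀ j, b j = |remb (e j) c| * τ.re + σ j * remb (e j) x₀ := ⟨_, fun _ => rfl⟩
  obtain ⟨g, hg⟩ : ∃ g : Fin n → ℝ → ℂ, ∀ j t, g j t = ((((a j) ^ 2) ^ (-s) / (a j) ^ 2 : ℝ) : ℂ) *
      heckeKernel s ((b j + σ j * t) / a j) := ⟨_, fun _ _ => rfl⟩
  obtain ⟨H, hH⟩ : ∃ H : (Fin n → ℝ) → ℂ, ∀ x, H x = ∏ j, g j ((N *ᵥ x) j) := ⟨_, fun _ => rfl⟩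
  have hgc : ∀ j, Continuous (g j) := fun j => by
    rw [funext (hg j)]
    exact continuous_const.mul ((continuous_heckeKernel s).comp (by fun_prop))
  have hHc : Continuous H := by
    rw [funext hH]
    refine continuous_finsetProd _ fun j _ => (hgc j).comp ?_
    unfold Matrix.mulVec dotProduct
    fun_prop
  -- one coordinate
  have hgb : ∀ j, ∀ R : ℝ, ∃ Cj : ℝ, 0 ≤ Cj ∧ ∀ p q : ℝ, |p| ≤ R →
      ‖g j (p + q)‖ ≤ Cj * (1 + q ^ 2)⁻¹ := fun j R => by
    obtain ⟨A, hA⟩ : ∃ A : ℝ, A = ((a j) ^ 2) ^ (-s) / (a j) ^ 2 := ⟨_, rfl⟩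
    obtain ⟨T, hT⟩ : ∃ T : ℝ, T = (|b j| + |R|) / a j := ⟨_, rfl⟩
    refine ⟨A * (2 * (1 + T ^ 2) * (1 + a j ^ 2)), hA ▸ by positivity, fun p q hp => ?_⟩
    rw [hg, norm_mul, Complex.norm_real, Real.norm_of_nonneg (by positivity), ← hA, mul_assoc A]
    refine mul_le_mul_of_nonneg_left ((norm_heckeKernel_le hs _).trans ?_) (hA ▸ by positivity)
    obtain ⟨v, hv⟩ : ∃ v, v = (b j + σ j * (p + q)) / a j := ⟨_, rfl⟩
    rw [← hv, ← div_eq_mul_inv, le_div_iff₀ (by positivity), inv_mul_le_iff₀ (by positivity)]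
    have hu : |σ j * q / a j - v| ≤ T := by
      rw [hv, hT, ← sub_div, abs_div, abs_of_pos (ha0 j)]
      refine div_le_div_of_nonneg_right ?_ (ha0 j).le
      have h2 : |σ j * p| ≤ |R| := by
        rw [abs_mul, show |σ j| = 1 by rcases hσ j with h | h <;> simp [h], one_mul]
        exact hp.trans (le_abs_self R)
      calc |σ j * q - (b j + σ j * (p + q))|
          = |b j + σ j * p| := by rw [← abs_neg]; ring_nf
        _ ≤ _ := (abs_add_le _ _).trans (by linarith)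
    have h3 : (q / a j) ^ 2 ≤ 2 * (1 + T ^ 2) * (1 + v ^ 2) - 1 := by
      have e1 : (q / a j) ^ 2 = (σ j * q / a j) ^ 2 := by
        rcases hσ j with h | h <;> rw [h] <;> ring
      rw [e1]
      have h4 : (σ j * q / a j - v) ^ 2 ≤ T ^ 2 := by
        rw [← sq_abs (σ j * q / a j - v)]
        exact pow_le_pow_left₀ (abs_nonneg _) hu 2
      nlinarith [sq_nonneg (σ j * q / a j - v - v), mul_nonneg (sq_nonneg T) (sq_nonneg v)]
    have h5 : q ^ 2 = a j ^ 2 * (q / a j) ^ 2 := by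
      have := (ha0 j).ne'
      field_simp
    nlinarith [mul_le_mul_of_nonneg_left h3 (sq_nonneg (a j)), sq_nonneg T, sq_nonneg v,
      mul_nonneg (sq_nonneg T) (sq_nonneg v)]
  obtain ⟨W, hW⟩ : ∃ W : (Fin n → ℤ) → ℝ, ∀ v, W v = placeWeight fun w => remb w (EI v : K) :=
    ⟨_, fun _ => rfl⟩
  have hWs : Summable W := by
    obtain ⟨C, -, hC⟩ := exists_translate_bound J
    exact ((EI.summable_iff.2 (hC fun _ => 0).1).congr fun v => by simp [hW])
  have hHd : ∀ R : ℝ, ∃ B : (Fin n → ℤ) → ℝ, Summable B ∧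
      ∀ x v, (∀ i, |x i| ≤ R) → ‖H (x + ofInt v)‖ ≤ B v := fun R => by
    choose Cj hCj0 hCj using fun j => hgb j (∑ i, |N j i| * R)
    refine ⟨fun v => (∏ j, Cj j) * W v, hWs.mul_left _, fun x v hx => ?_⟩
    show ‖H (x + ofInt v)‖ ≤ (∏ j, Cj j) * W v
    rw [hH, norm_prod, hW, placeWeight, ← e.prod_comp fun w => (1 + remb w (EI v : K) ^ 2)⁻¹,
      ← Finset.prod_mul_distrib]
    refine Finset.prod_le_prod (fun j _ => norm_nonneg _) fun j _ => ?_
    rw [Matrix.mulVec_add, Pi.add_apply, ← hNint]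
    refine hCj j _ _ ?_
    show |∑ i, N j i * x i| ≤ _
    refine (Finset.abs_sum_le_sum_abs _ _).trans (Finset.sum_le_sum fun i _ => ?_)
    rw [abs_mul]
    exact mul_le_mul_of_nonneg_left (hx i) (abs_nonneg _)
  have hcoef : ∀ m : Fin n → ℤ, ∫ x : Fin n → ℝ, mFourier (-m) (toTorus x) * H x =
      ((covol J : ℝ) : ℂ)⁻¹ * (dualTerm s τ c (EJ m : K) * trChar ((EJ m : K) * x₀)) := fun m => by
    obtain ⟨G, hG⟩ : ∃ G : (Fin n → ℝ) → ℂ, ∀ u, G u =
        ∏ j, g j (u j) * Complex.exp (-(2 * π * I) * ((M *ᵥ ofInt m) j : ℝ) * u j) :=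
      ⟨_, fun _ => rfl⟩
    have hGx : ∀ x, mFourier (-m) (toTorus x) * H x = G (N *ᵥ x) := fun x => by
      have hlin : ∑ i, (M *ᵥ ofInt m) i * (N *ᵥ x) i = ∑ i, (m i : ℝ) * x i := by
        show (M *ᵥ ofInt m) ⬝ᵥ (N *ᵥ x) = ofInt m ⬝ᵥ x
        rw [← Matrix.vecMul_transpose, ← Matrix.dotProduct_mulVec, Matrix.mulVec_mulVec, hMN,
          Matrix.one_mulVec]
      rw [hG, hH, Finset.prod_mul_distrib, ← Complex.exp_sum, mul_comm, mFourier_toTorus]
      congr 2
      have hlin' := congrArg (fun r : ℝ => (r : ℂ)) hlin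
      push_cast at hlin'
      simp only [Pi.neg_apply, Int.cast_neg, neg_mul, mul_assoc, Finset.sum_neg_distrib,
        ← Finset.mul_sum, hlin']
      ring
    have hmeas : Measurable fun x : Fin n → ℝ => N *ᵥ x := by
      unfold Matrix.mulVec dotProduct; fun_prop
    have hmap := Real.map_matrix_volume_pi_eq_smul_volume_pi hdet
    have hcont : Continuous G := by
      rw [funext hG]
      exact continuous_finsetProd _ fun j _ => ((hgc j).comp (by fun_prop)).mul (by fun_prop)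
    simp only [hGx]
    rw [← integral_map hmeas.aemeasurable hcont.aestronglyMeasurable,
      show (fun x => N *ᵥ x) = ⇑(Matrix.toLin' N) from rfl, hmap, integral_smul_measure,
      ENNReal.toReal_ofReal (abs_nonneg _), abs_inv, hdetN, funext hG,
      MeasureTheory.integral_fintype_prod_volume_eq_prod
        (f := fun j r => g j r * Complex.exp (-(2 * π * I) * ((M *ᵥ ofInt m) j : ℝ) * r)),
      Complex.real_smul, Complex.ofReal_inv, ← exp_sum_trChar, dualTerm, ← Finset.prod_mul_distrib,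
      ← e.prod_comp fun w => ((((|remb w c| * τ.im) ^ 2) ^ (-s) / (|remb w c| * τ.im) : ℝ) : ℂ) *
        Complex.exp (2 * π * I * (remb w c * remb w (EJ m : K) * τ.re : ℝ)) *
          𝓕 (heckeKernel s) (remb w c * remb w (EJ m : K) * τ.im) *
        Complex.exp (2 * π * I * (remb w ((EJ m : K) * x₀) : ℝ))]
    congr 1
    refine Finset.prod_congr rfl fun j _ => ?_
    simp only [hg, mul_assoc ((((a j) ^ 2) ^ (-s) / (a j) ^ 2 : ℝ) : ℂ)]
    rw [integral_const_mul, integral_kernel_affine s (ha0 j) (hσ j), hMint, ← ha j]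
    have hσ2 : σ j * σ j = 1 := by rcases hσ j with h | h <;> simp [h]
    have e2 : σ j * a j * remb (e j) (EJ m : K) =
        remb (e j) c * remb (e j) (EJ m : K) * τ.im := by
      rw [ha, ← hσc j]
      linear_combination (remb (e j) c * remb (e j) (EJ m : K) * τ.im) * hσ2
    have e1 : σ j * remb (e j) (EJ m : K) * b j =
        remb (e j) c * remb (e j) (EJ m : K) * τ.re + remb (e j) ((EJ m : K) * x₀) := by
      rw [hb, ← hσc j, map_mul]
      linear_combination (remb (e j) (EJ m : K) * remb (e j) c * τ.re +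
        remb (e j) (EJ m : K) * remb (e j) x₀) * hσ2
    rw [e1, e2, Complex.ofReal_add, mul_add, Complex.exp_add]
    have := (ha0 j).ne'
    push_cast
    field_simp
  have hds : Summable fun ν : ↥(dualIdeal J : Set K) =>
      dualTerm s τ c ν * trChar ((ν : K) * x₀) :=
    Summable.of_norm_bounded (inner_poisson J hs hs1 τ hc).1.norm fun ν => by
      rw [norm_mul, norm_trChar, mul_one]
  refine ⟨hds, ?_⟩
  have hp := poisson_dominated hHc hHd hcoef ((EJ.summable_iff.2 hds).mul_left _)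
  rw [← tsum_mul_left, ← EI.tsum_eq, ← EJ.tsum_eq, ← hp]
  refine tsum_congr fun v => ?_
  rw [hH, heckeTerm, ← e.prod_comp fun w =>
    (((remb w c : ℂ) * τ + (remb w (x₀ + EI v) : ℂ)) ^ 2)⁻¹ *
      ((Complex.normSq ((remb w c : ℂ) * τ + (remb w (x₀ + EI v) : ℂ)) ^ (-s) : ℝ) : ℂ)]
  refine Finset.prod_congr rfl fun j _ => ?_
  rw [hg, hNint, placeTerm_eq s τ (hσ j) (hσc j) (remb_ne_zero _ hc), ← ha j, hb, map_add]
  ring_nf

variable (N : ℕ) [NeZero N]

/-- A dual element of `N J`, times `N`, is one of `J`. -/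
theorem natCast_mul_mem_dual {ν : K} (hν : ν ∈ (dualIdeal (pMul J N) : Set K)) :
    (N : K) * ν ∈ (dualIdeal J : Set K) := by
  refine (FractionalIdeal.mem_dual (A := ℤ) (K := ℚ) J.ne_zero).2 fun x hx => ?_
  obtain ⟨z, hz⟩ := (FractionalIdeal.mem_dual (A := ℤ) (K := ℚ) (pMul J N).ne_zero).1 hν
    ((N : K) * x) (FA.KlingenRay.mul_mem_pMul J N hx)
  refine ⟨z, ?_⟩
  rw [hz, Algebra.traceForm_apply, Algebra.traceForm_apply, mul_comm (N : K) ν, mul_assoc]

omit [NeZero N] in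
/-- The scaled point. -/
def scalePt (N : ℕ) [NeZero N] (τ : ℍ) : ℍ :=
  ⟨(τ : ℂ) / (N : ℂ), by
    rw [Complex.div_natCast_im]
    exact div_pos τ.im_pos (Nat.cast_pos.2 (NeZero.pos N))⟩

omit J in
theorem scalePt_re (τ : ℍ) : (scalePt N τ).re = τ.re / N :=
  Complex.div_natCast_re (τ : ℂ) N

omit J in
theorem scalePt_im (τ : ℍ) : (scalePt N τ).im = τ.im / N :=
  Complex.div_natCast_im (τ : ℂ) N

/-- **The scaling of a dual term.** -/
theorem dualTerm_scale (s : ℝ) (τ : ℍ) {c : K} (hc : c ≠ 0) (ν : K) :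
    dualTerm s τ c ν = (((((N : ℝ) ^ 2) ^ (-s) / N) ^ finrank ℚ K : ℝ) : ℂ) *
      dualTerm s (scalePt N τ) c ((N : K) * ν) := by
  have hN : (N : ℝ) ≠ 0 := Nat.cast_ne_zero.2 (NeZero.ne N)
  rw [dualTerm, dualTerm, ← card_places, ← Finset.card_univ, ← Finset.prod_const,
    Complex.ofReal_prod, ← Finset.prod_mul_distrib]
  refine Finset.prod_congr rfl fun w _ => ?_
  obtain ⟨a, ha⟩ : ∃ a : ℝ, a = |remb w c| * τ.im := ⟨_, rfl⟩
  have ha0 : 0 < a := ha ▸ mul_pos (abs_pos.2 (remb_ne_zero _ hc)) τ.im_pos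
  rw [scalePt_im, scalePt_re, map_mul, map_natCast, ← mul_assoc, ← mul_assoc, ← ha,
    ← Complex.ofReal_mul]
  congr 2
  · congr 1
    have e : (a / N) ^ 2 * (N : ℝ) ^ 2 = a ^ 2 := by field_simp
    rw [show |remb w c| * (τ.im / N) = a / N by rw [ha, mul_div_assoc], ← e,
      Real.mul_rpow (sq_nonneg _) (sq_nonneg _)]
    field_simp
  · congr 2
    congr 1
    field_simp
  · field_simp

end FA.KlingenTwo

end
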