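import Fermat.Agent.KlingenTwo.Poisson
import Fermat.Agent.KlingenZero.Series

/-!
# Hecke's series of weight two for a periodic weight, and its limit

For a weight on pairs the series with the factor `|c z + d| ^ (-2 s)` is, for `0 < s ≤ 1`, a
Dirichlet series, a multiple of `y ^ (-n - 2 n s)` and the dual terms. If the middle part vanishes
the limit at `s = 0` transforms with weight `2 n`; at every cusp it differs from a series bounded
above every line by at most a multiple of `y ^ (-n)`.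
-/

set_option autoImplicit false
set_option linter.unusedSectionVars false
set_option linter.style.haveILetI false

noncomputable section

open NumberField InfinitePlace Module Filter
open UpperHalfPlane hiding I
open Complex (I)
open scoped Real nonZeroDivisors Classical Topology MatrixGroups FourierTransform

namespace FA.KlingenTwo

open FA.HeckeFE FA.SiegelKlingen FA.KlingenRay
open FA.HeckeCharFE (trChar norm_trChar)
open FA.KlingenZero (DualPair wHat MeanZero)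
open FA.PadicEulerFactor (pMul mem_pMul)

variable {K : Type*} [Field K] [NumberField K] [IsTotallyReal K]
variable (J : (FractionalIdeal (𝓞 K)⁰ K)ˣ) (N : ℕ) [NeZero N]

/-- Hecke's series of a weight. -/
def hSum (Ψ : K × K → ℂ) (s : ℝ) (τ : ℍ) : ℂ :=
  ∑' x : Orb J, Ψ (repPair J x) * heckeTerm s τ (repPair J x).1 (repPair J x).2

/-- The sum over `c = 0`. -/
def cPart (Ψ : K × K → ℂ) (s : ℝ) (τ : ℍ) : ℂ :=
  ∑' d : Rep J, Ψ (0, d.1) * heckeTerm s τ 0 d.1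

/-- The middle part. -/
def zPart (Ψ : K × K → ℂ) (s : ℝ) (τ : ℍ) : ℂ :=
  ∑' c : Rep J, ((covol (pMul J N) : ℝ) : ℂ)⁻¹ * (wHat J N Ψ c.1 0 * dualTerm s τ c.1 0)

/-- A dual term off `ν = 0`. -/
def tTerm (Ψ : K × K → ℂ) (s : ℝ) (τ : ℍ) (p : DualPair J N) : ℂ :=
  if (p.2 : K) = 0 then 0
  else ((covol (pMul J N) : ℝ) : ℂ)⁻¹ * (wHat J N Ψ p.1.1 p.2 * dualTerm s τ p.1.1 p.2)

/-- The limit of a dual term. -/
def limW (Ψ : K × K → ℂ) (z : ℂ) (p : DualPair J N) : ℂ :=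
  factor (pMul J N) 2 * (wHat J N Ψ p.1.1 p.2 *
    ((coef 2 p.1.1 (p.2 : K) : ℂ) * expTerm z p.1.1 p.2))

/-- The limit. -/
def eisTwo (Ψ : K × K → ℂ) (τ : ℍ) : ℂ :=
  perSum J 2 (fun d => Ψ (0, d)) + ∑' p, limW J N Ψ (τ : ℂ) p

variable {J N} {k : ℕ} {Ψ : K × K → ℂ}

theorem exists_wHat_bound (hΨ : IsWeight J N k Ψ) :
    ∃ M : ℝ, 0 ≤ M ∧ ∀ c ∈ (J : Set K), ∀ ν : K, ‖wHat J N Ψ c ν‖ ≤ M := by
  obtain ⟨M, hM0, hM⟩ := hΨ.exists_bound
  exact ⟨(residues J N).card * M, by positivity, fun c hc ν => (norm_hatSum_le ν).trans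
    ((Finset.sum_le_card_nsmul _ _ M fun r hr => hM c hc r (residues_mem J N hr)).trans_eq
      (nsmul_eq_mul _ _))⟩

/-- **The dual terms are dominated.** -/
theorem exists_tTerm_le (hΨ : IsWeight J N k Ψ) (τ : ℍ) : ∃ B : DualPair J N → ℝ, Summable B ∧
    ∀ s : ℝ, 0 ≤ s → s ≤ 1 → ∀ p, ‖tTerm J N Ψ s τ p‖ ≤ B p := by
  obtain ⟨M, hM0, hM⟩ := exists_wHat_bound hΨ
  obtain ⟨B, hB, hb⟩ := exists_tail_bound J (scalePt N τ)
  obtain ⟨i, hi⟩ : ∃ i : DualPair J N → Rep J × ↥(dualIdeal J : Set K),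
      ∀ p, (i p).1 = p.1 ∧ ((i p).2 : K) = (N : K) * p.2 :=
    ⟨fun p => (p.1, ⟨_, natCast_mul_mem_dual J N p.2.2⟩), fun p => ⟨rfl, rfl⟩⟩
  have hN : (N : K) ≠ 0 := Nat.cast_ne_zero.2 (NeZero.ne N)
  have hinj : Function.Injective i := fun a b e => Prod.ext (by rw [← (hi a).1, e, (hi b).1])
    (Subtype.ext (mul_left_cancel₀ hN (by rw [← (hi a).2, e, (hi b).2])))
  refine ⟨_, (hB.comp_injective hinj).mul_left
    (‖((covol (pMul J N) : ℝ) : ℂ)⁻¹‖ * M), fun s hs hs1 p => ?_⟩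
  have hB0 : 0 ≤ B (i p) := (norm_nonneg _).trans (hb 0 le_rfl zero_le_one _)
  rw [tTerm, Function.comp_apply]
  split_ifs with h
  · rw [norm_zero]
    positivity
  · rw [norm_mul, norm_mul, mul_assoc]
    refine mul_le_mul_of_nonneg_left (mul_le_mul (hM _ p.1.2.1 _) ?_ (norm_nonneg _) hM0)
      (norm_nonneg _)
    have hb' := hb s hs hs1 (i p)
    rw [dualTail, if_neg (by rw [(hi p).2]; exact mul_ne_zero hN h), (hi p).1, (hi p).2] at hb'
    rw [dualTerm_scale N s τ (Rep.ne_zero J p.1), norm_mul, Complex.norm_real]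
    refine (mul_le_of_le_one_left (norm_nonneg _) ?_).trans hb'
    have h1 : (1 : ℝ) ≤ N := by exact_mod_cast NeZero.pos N
    rw [Real.norm_of_nonneg (by positivity)]
    refine pow_le_one₀ (by positivity) ((div_le_one (by positivity)).2 ?_)
    exact (Real.rpow_le_one_of_one_le_of_nonpos (by nlinarith) (by linarith)).trans h1

theorem tTerm_zero (τ : ℍ) (p : DualPair J N) : tTerm J N Ψ 0 τ p = limW J N Ψ τ p := by
  have hc := Rep.ne_zero J p.1
  have hcv : ((covol (pMul J N) : ℝ) : ℂ) ≠ 0 := Complex.ofReal_ne_zero.2 (covol_pos _).ne'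
  rw [tTerm, limW, dualTerm_limit (pMul J N) τ hc]
  split_ifs with h
  · rw [coef, if_neg fun hp => by simpa [h] using hp (Classical.arbitrary _), Rat.cast_zero,
      zero_mul, mul_zero, mul_zero]
  · field_simp

theorem summable_limW (hΨ : IsWeight J N k Ψ) (τ : ℍ) : Summable (limW J N Ψ τ) := by
  obtain ⟨B, hB, hb⟩ := exists_tTerm_le hΨ τ
  exact Summable.of_norm_bounded hB fun p => tTerm_zero (Ψ := Ψ) τ p ▸ hb 0 le_rfl zero_le_one p

theorem tendsto_tSum (hΨ : IsWeight J N k Ψ) (τ : ℍ) :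
    Tendsto (fun s : ℝ => ∑' p, tTerm J N Ψ s τ p) (𝓝[>] 0) (𝓝 (∑' p, limW J N Ψ τ p)) := by
  obtain ⟨B, hB, hb⟩ := exists_tTerm_le hΨ τ
  simp only [← tTerm_zero]
  refine tendsto_tsum_of_dominated_convergence hB (fun p => ?_) ?_
  · simp only [tTerm]
    split_ifs with h
    · exact tendsto_const_nhds
    · refine ((tendsto_finsetProd _ fun w _ => ((Tendsto.mul_const _ ?_).mul
        (tendsto_fourier_heckeKernel _))).const_mul _).const_mul _
      refine (Complex.continuous_ofReal.tendsto _).comp (Tendsto.div_const ?_ _)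
      refine ((Real.continuousAt_const_rpow ?_).tendsto.comp
        (tendsto_neg (0 : ℝ))).mono_left nhdsWithin_le_nhds
      exact pow_ne_zero _ (mul_ne_zero (abs_ne_zero.2 (remb_ne_zero _ (Rep.ne_zero J p.1)))
        τ.im_pos.ne')
  · filter_upwards [Ioc_mem_nhdsGT zero_lt_one] with s hs using hb s hs.1.le hs.2

theorem tendsto_cPart (hΨ : IsWeight J N k Ψ) (τ : ℍ) :
    Tendsto (fun s : ℝ => cPart J Ψ s τ) (𝓝[>] 0) (𝓝 (perSum J 2 fun d => Ψ (0, d))) := by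
  obtain ⟨M, hM0, hM⟩ := hΨ.exists_bound
  refine tendsto_tsum_of_dominated_convergence
    (((summable_constSum J le_rfl).mul_left (max 1 (normR J ^ 2)⁻¹)).mul_left M) (fun d => ?_) ?_
  · refine Tendsto.const_mul _ ?_
    simp only [heckeTerm_zero]
    have hN : 0 < ((|Algebra.norm ℚ d.1| : ℚ) : ℝ) ^ 2 :=
      pow_pos ((normR_pos J).trans_le (normR_le_norm J d.2.1 (Rep.ne_zero J d))) 2
    have h := (((Real.continuousAt_const_rpow hN.ne' (b := -(0 : ℝ))).tendsto.comp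
      (tendsto_neg (0 : ℝ))).mono_left (nhdsWithin_le_nhds (s := Set.Ioi 0))).mul_const
        (((|Algebra.norm ℚ d.1| : ℚ) : ℝ) ^ 2)⁻¹
    rw [neg_zero, Real.rpow_zero, one_mul] at h
    rw [show (((Algebra.norm ℚ d.1 : ℚ) : ℂ) ^ 2)⁻¹ =
        ((((((|Algebra.norm ℚ d.1| : ℚ) : ℝ)) ^ 2)⁻¹ : ℝ) : ℂ) by
      rw [← Complex.ofReal_ratCast, ← Complex.ofReal_pow, ← Complex.ofReal_inv, Rat.cast_abs,
        sq_abs]]
    exact (Complex.continuous_ofReal.tendsto _).comp h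
  · filter_upwards [Ioc_mem_nhdsGT zero_lt_one] with s hs
    intro d
    rw [norm_mul]
    exact mul_le_mul (hM _ (zero_mem_ideal J) _ d.2.1)
      (norm_heckeTerm_zero_le J hs.1.le hs.2 _ d) (norm_nonneg _) hM0

/-- **Poisson summation in the second variable**, residue by residue. -/
theorem hasSum_inner (hΨ : IsWeight J N k Ψ) {s : ℝ} (hs : 0 ≤ s) (hs1 : s ≤ 1) (τ : ℍ)
    (c : Rep J)
    (hd : Summable fun d : ↥(J : Set K) => Ψ (c.1, (d : K)) * heckeTerm s τ c.1 (d : K)) :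
    HasSum (fun ν : ↥(dualIdeal (pMul J N) : Set K) => ((covol (pMul J N) : ℝ) : ℂ)⁻¹ *
        (wHat J N Ψ c.1 (ν : K) * dualTerm s τ c.1 (ν : K)))
      (∑' d : ↥(J : Set K), Ψ (c.1, (d : K)) * heckeTerm s τ c.1 (d : K)) := by
  obtain ⟨e, he⟩ := exists_split J N
  have hd' : Summable fun p : {r // r ∈ residues J N} × ↥(pMul J N : Set K) =>
      Ψ (c.1, (e p : K)) * heckeTerm s τ c.1 (e p : K) :=
    (Equiv.summable_iff e
      (f := fun d : ↥(J : Set K) => Ψ (c.1, (d : K)) * heckeTerm s τ c.1 (d : K))).2 hd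
  have hh : HasSum (fun ν : ↥(dualIdeal (pMul J N) : Set K) =>
      ∑ r : {r // r ∈ residues J N}, Ψ (c.1, r.1) * (((covol (pMul J N) : ℝ) : ℂ)⁻¹ *
        (dualTerm s τ c.1 (ν : K) * trChar ((ν : K) * r.1))))
      (∑ r : {r // r ∈ residues J N}, Ψ (c.1, r.1) *
        ∑' y : ↥(pMul J N : Set K), heckeTerm s τ c.1 (r.1 + (y : K))) := by
    refine hasSum_sum fun r _ => ?_
    obtain ⟨h1, h2⟩ := inner_poisson_shift (pMul J N) hs hs1 τ (Rep.ne_zero J c) r.1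
    rw [h2]
    exact (h1.hasSum.mul_left _).mul_left _
  rw [← e.tsum_eq fun d : ↥(J : Set K) => Ψ (c.1, (d : K)) * heckeTerm s τ c.1 (d : K),
    Summable.tsum_prod hd', tsum_fintype, Finset.sum_congr rfl fun r _ => show
      ∑' y, Ψ (c.1, (e (r, y) : K)) * heckeTerm s τ c.1 (e (r, y) : K) = Ψ (c.1, r.1) *
        ∑' y : ↥(pMul J N : Set K), heckeTerm s τ c.1 (r.1 + (y : K)) by
      rw [← tsum_mul_left]
      refine tsum_congr fun y => ?_
      have h := hΨ.periodic c.1 c.2.1 r.1 (residues_mem J N r.2) 0 (zero_mem_ideal (pMul J N))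
        (y : K) y.2
      rw [add_zero] at h
      rw [he (r, y), h]]
  refine hh.congr_fun fun ν => ?_
  rw [wHat, hatSum, ← Finset.sum_coe_sort (residues J N), Finset.sum_mul, Finset.mul_sum]
  exact Finset.sum_congr rfl fun r _ => by ring

/-- **The decomposition.** -/
theorem hSum_eq (hΨ : IsWeight J N k Ψ) {s : ℝ} (hs : 0 < s) (hs1 : s ≤ 1) (τ : ℍ) :
    hSum J Ψ s τ = cPart J Ψ s τ + zPart J N Ψ s τ + ∑' p, tTerm J N Ψ s τ p := by
  obtain ⟨M, hM0, hM⟩ := hΨ.exists_bound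
  have hsI : Summable fun p : Rep J × ↥(J : Set K) => Ψ (p.1.1, p.2) * heckeTerm s τ p.1.1 p.2 :=
    Summable.of_norm_bounded ((summable_hecke_prod J hs τ).norm.mul_left M) fun p => by
      rw [norm_mul]
      exact mul_le_mul_of_nonneg_right (hM _ p.1.2.1 _ p.2.2) (norm_nonneg _)
  have hsC : Summable fun d : Rep J => Ψ (0, d.1) * heckeTerm s τ 0 d.1 :=
    Summable.of_norm_bounded ((summable_hecke_zero J hs.le hs1 (τ : ℂ)).norm.mul_left M) fun d => by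
      rw [norm_mul]
      exact mul_le_mul_of_nonneg_right (hM _ (zero_mem_ideal J) _ d.2.1) (norm_nonneg _)
  obtain ⟨B, hB, hb⟩ := exists_tTerm_le hΨ τ
  have hsT : Summable (tTerm J N Ψ s τ) := Summable.of_norm_bounded hB (hb s hs.le hs1)
  have hpois := fun c : Rep J => hasSum_inner hΨ hs.le hs1 τ c (hsI.prod_factor c)
  have hsplit : ∀ c : Rep J, ∑' d : ↥(J : Set K), Ψ (c.1, (d : K)) * heckeTerm s τ c.1 (d : K) =
      ((covol (pMul J N) : ℝ) : ℂ)⁻¹ * (wHat J N Ψ c.1 0 * dualTerm s τ c.1 0) +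
        ∑' ν : ↥(dualIdeal (pMul J N) : Set K), tTerm J N Ψ s τ (c, ν) := fun c => by
    rw [← (hpois c).tsum_eq, (hpois c).summable.tsum_eq_add_tsum_ite ⟨0, zero_mem_ideal _⟩]
    congr 1
    refine tsum_congr fun ν => ?_
    simp only [tTerm, Subtype.ext_iff]
  have hsZ : Summable fun c : Rep J =>
      ((covol (pMul J N) : ℝ) : ℂ)⁻¹ * (wHat J N Ψ c.1 0 * dualTerm s τ c.1 0) := by
    refine (hsI.prod.sub hsT.prod).congr fun c => ?_
    rw [hsplit, add_sub_cancel_right]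
  rw [hSum, Summable.tsum_sum (f := fun x : Orb J =>
    Ψ (repPair J x) * heckeTerm s τ (repPair J x).1 (repPair J x).2) hsI hsC,
    show ∑' p : Rep J × ↥(J : Set K), Ψ (repPair J (Sum.inl p)) *
        heckeTerm s τ (repPair J (Sum.inl p)).1 (repPair J (Sum.inl p)).2 =
      ∑' p : Rep J × ↥(J : Set K), Ψ (p.1.1, p.2) * heckeTerm s τ p.1.1 p.2 from rfl,
    show ∑' d : Rep J, Ψ (repPair J (Sum.inr d)) *
        heckeTerm s τ (repPair J (Sum.inr d)).1 (repPair J (Sum.inr d)).2 = cPart J Ψ s τ from rfl,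
    hsI.tsum_prod, tsum_congr hsplit, hsZ.tsum_add hsT.prod, ← hsT.tsum_prod, ← zPart]
  ring

/-- **The limit without the middle part.** -/
theorem tendsto_hSum_sub (hΨ : IsWeight J N k Ψ) (τ : ℍ) :
    Tendsto (fun s : ℝ => hSum J Ψ s τ - zPart J N Ψ s τ) (𝓝[>] 0) (𝓝 (eisTwo J N Ψ τ)) := by
  refine ((tendsto_cPart hΨ τ).add (tendsto_tSum hΨ τ)).congr' ?_
  filter_upwards [Ioc_mem_nhdsGT zero_lt_one] with s hs
  rw [hSum_eq hΨ hs.1 hs.2 τ]
  ring

theorem tendsto_hSum (hΨ : IsWeight J N k Ψ) (h0 : MeanZero J N Ψ) (τ : ℍ) :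
    Tendsto (fun s : ℝ => hSum J Ψ s τ) (𝓝[>] 0) (𝓝 (eisTwo J N Ψ τ)) := by
  refine (tendsto_hSum_sub hΨ τ).congr fun s => ?_
  rw [zPart, tsum_congr fun c : Rep J => show _ * (wHat J N Ψ c.1 0 * _) = (0 : ℂ) by
    rw [h0 _ c.2.1, zero_mul, mul_zero], tsum_zero, sub_zero]

/-- The middle part scales with `y`. -/
theorem zPart_scale (s : ℝ) (τ : ℍ) {τ₁ : ℍ} (h1 : τ₁.im = 1) :
    zPart J N Ψ s τ = ((((τ.im ^ 2) ^ (-s) / τ.im) ^ finrank ℚ K : ℝ) : ℂ) *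
      zPart J N Ψ s τ₁ := by
  rw [zPart, zPart, ← tsum_mul_left]
  refine tsum_congr fun c => ?_
  have e : dualTerm s τ c.1 0 = ((((τ.im ^ 2) ^ (-s) / τ.im) ^ finrank ℚ K : ℝ) : ℂ) *
      dualTerm s τ₁ c.1 0 := by
    rw [dualTerm, dualTerm, ← card_places, ← Finset.card_univ, ← Finset.prod_const,
      Complex.ofReal_prod, ← Finset.prod_mul_distrib]
    refine Finset.prod_congr rfl fun w _ => ?_
    simp only [map_zero, mul_zero, zero_mul, Complex.ofReal_zero, Complex.exp_zero, mul_one]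
    rw [h1, mul_one, ← mul_assoc, ← Complex.ofReal_mul]
    congr 2
    rw [mul_pow, Real.mul_rpow (sq_nonneg _) (sq_nonneg _)]
    field_simp
  rw [e]
  ring

variable (K) in
/-- The factor of automorphy. -/
def jTwo (s : ℝ) (g : SL(2, ℤ)) (τ : ℍ) : ℂ :=
  denom g τ ^ (2 * finrank ℚ K) *
    ((((Complex.normSq (denom g τ)) ^ s) ^ finrank ℚ K : ℝ) : ℂ)

theorem tendsto_jTwo (g : SL(2, ℤ)) (τ : ℍ) :
    Tendsto (fun s : ℝ => jTwo K s g τ) (𝓝[>] 0) (𝓝 (denom g τ ^ (2 * finrank ℚ K))) := by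
  have h1 : Tendsto (fun s : ℝ => ((((Complex.normSq (denom g τ)) ^ s) ^ finrank ℚ K : ℝ) : ℂ))
      (𝓝[>] 0) (𝓝 1) := by
    refine ((Complex.continuous_ofReal.comp ((Real.continuous_const_rpow
      (Complex.normSq_pos.2 (denom_ne_zero _ _)).ne').pow _)).tendsto' 0 1 ?_).mono_left
        nhdsWithin_le_nhds
    simp
  simpa [jTwo] using h1.const_mul (denom g τ ^ (2 * finrank ℚ K))

/-- **The transformation law.** -/
theorem hSum_smul (hΨ : IsWeight J N 2 Ψ) (s : ℝ) (g : SL(2, ℤ)) (τ : ℍ) :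
    hSum J Ψ s (g • τ) = jTwo K s g τ * hSum J (fun p => Ψ (rowMul g⁻¹ p)) s τ := by
  obtain ⟨den, hden⟩ : ∃ den : ℂ, den = (g 1 0 : ℂ) * τ + (g 1 1 : ℂ) := ⟨_, rfl⟩
  have hd : denom g τ = den := by rw [ModularGroup.denom_apply, hden]
  have hden0 : den ≠ 0 := hd ▸ denom_ne_zero _ _
  have hu : ∀ m : RestPlace K → ℤ,
      ((Algebra.norm ℚ (unitVal (K := K) m) : ℚ) : ℂ) ^ 2 = 1 := fun m => by
    rw [← Rat.cast_pow, ← sq_abs,
      show |Algebra.norm ℚ (unitVal (K := K) m)| = 1 from unit_norm (unitPow m), one_pow,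
      Rat.cast_one]
  rw [hSum, hSum, jTwo, hd,
    ← tsum_orb_rowMul (fun q => Ψ (rowMul g⁻¹ q) * heckeTerm s τ q.1 q.2) (fun m c hc d hd' => by
      rw [(hΨ.comp g⁻¹).unit m c hc d hd', hu, one_mul, heckeTerm_unit]) g, ← tsum_mul_left]
  refine tsum_congr fun x => ?_
  obtain ⟨p, hp⟩ : ∃ p, p = repPair J x := ⟨_, rfl⟩
  rw [← hp, rowMul_rowMul, mul_inv_cancel, rowMul_one, mul_left_comm]
  congr 1
  rw [heckeTerm, heckeTerm, ← card_places, pow_mul, ← Finset.card_univ,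
    Complex.ofReal_pow, ← Finset.prod_const, ← Finset.prod_const, ← Finset.prod_mul_distrib,
    ← Finset.prod_mul_distrib]
  refine Finset.prod_congr rfl fun w _ => ?_
  obtain ⟨L, hL⟩ : ∃ L : ℂ, L = (remb w (rowMul g p).1 : ℂ) * τ + (remb w (rowMul g p).2 : ℂ) :=
    ⟨_, rfl⟩
  have hL' : (remb w p.1 : ℂ) * ((g • τ : ℍ) : ℂ) + (remb w p.2 : ℂ) = L / den := by
    rw [eq_div_iff hden0, hL, UpperHalfPlane.specialLinearGroup_apply]
    simp only [rowMul, algebraMap_int_eq, eq_intCast, Complex.ofReal_intCast, map_add, map_mul,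
      map_intCast, Complex.ofReal_add, Complex.ofReal_mul]
    rw [← hden]
    field_simp
    rw [hden]
    ring
  rw [← hL, hL', div_pow, inv_div, div_eq_mul_inv, Complex.normSq_div,
    Real.div_rpow (Complex.normSq_nonneg _) (Complex.normSq_nonneg _),
    Real.rpow_neg (Complex.normSq_nonneg den), div_inv_eq_mul]
  push_cast
  ring

/-- **Invariance.** -/
theorem eisTwo_smul (hΨ : IsWeight J N 2 Ψ) (h0 : MeanZero J N Ψ) {g : SL(2, ℤ)}
    (hg : ∀ p : K × K, p.1 ∈ (J : Set K) → p.2 ∈ (J : Set K) → Ψ (rowMul g⁻¹ p) = Ψ p) (τ : ℍ) :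
    eisTwo J N Ψ (g • τ) = denom g τ ^ (2 * finrank ℚ K) * eisTwo J N Ψ τ := by
  refine tendsto_nhds_unique ((tendsto_hSum hΨ h0 (g • τ)).congr fun s => ?_)
    ((tendsto_jTwo g τ).mul (tendsto_hSum hΨ h0 τ))
  rw [hSum_smul hΨ]
  congr 1
  exact tsum_congr fun x => by
    show Ψ (rowMul g⁻¹ _) * _ = _
    rw [hg _ (repPair_mem J x).1 (repPair_mem J x).2.1]

/-- **The form at every cusp.** -/
theorem exists_cusp (hΨ : IsWeight J N 2 Ψ) (h0 : MeanZero J N Ψ) (g : SL(2, ℤ)) :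
    ∃ β : ℂ, ∀ τ : ℍ, (denom g τ ^ (2 * finrank ℚ K))⁻¹ * eisTwo J N Ψ (g • τ) =
      eisTwo J N (fun p => Ψ (rowMul g⁻¹ p)) τ + ((τ.im ^ finrank ℚ K : ℝ) : ℂ)⁻¹ * β := by
  have hne : ∀ t : ℍ, denom g t ^ (2 * finrank ℚ K) ≠ 0 := fun t =>
    pow_ne_zero _ (denom_ne_zero _ _)
  have hlim : ∀ t : ℍ, Tendsto (fun s : ℝ => zPart J N (fun p => Ψ (rowMul g⁻¹ p)) s t)
      (𝓝[>] 0) (𝓝 ((denom g t ^ (2 * finrank ℚ K))⁻¹ * eisTwo J N Ψ (g • t) -
        eisTwo J N (fun p => Ψ (rowMul g⁻¹ p)) t)) := fun t => by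
    refine ((((tendsto_jTwo g t).inv₀ (hne t)).mul (tendsto_hSum hΨ h0 (g • t))).sub
      (tendsto_hSum_sub (hΨ.comp g⁻¹) t)).congr' ?_
    filter_upwards [(tendsto_jTwo (K := K) g t).eventually_ne (hne t)] with s hs
    rw [hSum_smul hΨ, inv_mul_cancel_left₀ hs, sub_sub_cancel]
  obtain ⟨τ₁, hτ₁⟩ : ∃ τ₁ : ℍ, τ₁.im = 1 := ⟨⟨I, by simp⟩, by simp [UpperHalfPlane.im]⟩
  refine ⟨(denom g τ₁ ^ (2 * finrank ℚ K))⁻¹ * eisTwo J N Ψ (g • τ₁) -
    eisTwo J N (fun p => Ψ (rowMul g⁻¹ p)) τ₁, fun t => ?_⟩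
  have hs : Tendsto (fun s : ℝ => ((((t.im ^ 2) ^ (-s) / t.im) ^ finrank ℚ K : ℝ) : ℂ))
      (𝓝[>] 0) (𝓝 (((t.im ^ finrank ℚ K : ℝ) : ℂ)⁻¹)) := by
    have hy : t.im ^ 2 ≠ 0 := (pow_pos t.im_pos 2).ne'
    refine ((Complex.continuous_ofReal.comp ((((Real.continuous_const_rpow hy).comp
      continuous_neg).div_const t.im).pow _)).tendsto' 0 _ ?_).mono_left nhdsWithin_le_nhds
    simp
  have h := tendsto_nhds_unique (hlim t)
    ((hs.mul (hlim τ₁)).congr fun s => (zPart_scale s t hτ₁).symm)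
  linear_combination h

/-- **Bounded above the line `y = 1`.** -/
theorem exists_eisTwo_le (hΨ : IsWeight J N k Ψ) :
    ∃ B : ℝ, ∀ τ : ℍ, 1 ≤ τ.im → ‖eisTwo J N Ψ τ‖ ≤ B := by
  obtain ⟨τ₁, hτ₁⟩ : ∃ τ₁ : ℍ, τ₁.im = 1 := ⟨⟨I, by simp⟩, by simp [UpperHalfPlane.im]⟩
  refine ⟨‖perSum J 2 fun d => Ψ (0, d)‖ + ∑' p, ‖limW J N Ψ τ₁ p‖, fun τ hτ => ?_⟩
  refine (norm_add_le _ _).trans (add_le_add le_rfl
    (tsum_of_norm_bounded (summable_limW hΨ τ₁).norm.hasSum fun p => ?_))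
  rw [limW, limW, norm_mul, norm_mul, norm_mul _ (_ * _), norm_mul _ (_ * _), expTerm, expTerm,
    norm_expansion_term, norm_expansion_term]
  refine mul_le_mul_of_nonneg_left (mul_le_mul_of_nonneg_left ?_ (norm_nonneg _)) (norm_nonneg _)
  rcases eq_or_ne (coef 2 p.1.1 (p.2 : K)) 0 with h | h
  · simp [h]
  have hpos : ∀ w : InfinitePlace K, 0 < remb w p.1.1 * remb w (p.2 : K) := by
    by_contra hc
    exact h (by rw [coef, if_neg hc])
  have htr : 0 ≤ ((Algebra.trace ℚ K (p.1.1 * (p.2 : K)) : ℚ) : ℝ) := by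
    rw [← sum_remb]
    exact Finset.sum_nonneg fun w _ => by rw [map_mul]; exact (hpos w).le
  have h0 : (0 : ℝ) ≤ (coef 2 p.1.1 (p.2 : K) : ℝ) := by
    rw [coef, if_pos hpos]
    exact Rat.cast_nonneg.2 (pow_nonneg (abs_nonneg _) _)
  refine mul_le_mul_of_nonneg_left (Real.exp_le_exp.2 ?_) h0
  rw [show (τ : ℂ).im = τ.im from rfl, show (τ₁ : ℂ).im = τ₁.im from rfl, hτ₁]
  have hπ : 2 * π * 1 ≤ 2 * π * τ.im := mul_le_mul_of_nonneg_left hτ (by positivity)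
  exact neg_le_neg (mul_le_mul_of_nonneg_right hπ htr)

end FA.KlingenTwo

end
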